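import Mathlib
import Fermat.Agent.MU.Lib.RR.RRI

section MergeWrap_Lib_RR_NonSpecial -- from Lib/RR/NonSpecial.lean

set_option autoImplicit false

/-!
# Riemann-Roch library: non-special divisors (helper7)

`(NS)`: on a function field of genus `g` with infinitely many places there are, outside any finite
set of places, `n ≤ g` distinct places `R₁, …, Rₙ` with `ℓ(R₁ + ⋯ + Rₙ) = 1`.
Uses only RR3 (`riemann_roch_H1`, `exists_idx_eq_zero`) — no differentials.
-/

noncomputable section

open AlgebraicCurve IntermediateField

namespace Fermat.Agent.RR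

variable {K F : Type*} [Field K] [Field F] [Algebra K F]

/-- the divisor `∑_{P ∈ S} P`. -/
def sumPlaces (S : Finset (Place K F)) : Divisor K F := ∑ P ∈ S, Finsupp.single P (1 : ℤ)

@[simp]
theorem sumPlaces_empty : sumPlaces (∅ : Finset (Place K F)) = 0 := by
  simp [sumPlaces]

theorem sumPlaces_cons {S : Finset (Place K F)} {P : Place K F} (hP : P ∉ S) :
    sumPlaces (Finset.cons P S hP) = sumPlaces S + Finsupp.single P 1 := by
  rw [sumPlaces, Finset.sum_cons, add_comm]
  rfl

theorem sumPlaces_apply_of_not_mem {S : Finset (Place K F)} {P : Place K F} (hP : P ∉ S) :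
    sumPlaces S P = 0 := by
  classical
  rw [sumPlaces, Finsupp.finsetSum_apply]
  refine Finset.sum_eq_zero fun Q hQ => ?_
  rw [Finsupp.single_apply, if_neg]
  rintro rfl
  exact hP hQ

theorem sumPlaces_apply_of_mem {S : Finset (Place K F)} {P : Place K F} (hP : P ∈ S) :
    sumPlaces S P = 1 := by
  classical
  rw [sumPlaces, Finsupp.finsetSum_apply, Finset.sum_eq_single P]
  · simp
  · intro Q _ hQ
    rw [Finsupp.single_apply, if_neg hQ]
  · intro h
    exact absurd hP h

theorem sumPlaces_nonneg (S : Finset (Place K F)) : 0 ≤ sumPlaces S := by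
  classical
  intro P
  by_cases hP : P ∈ S
  · rw [sumPlaces_apply_of_mem hP]; simp
  · rw [sumPlaces_apply_of_not_mem hP]; simp

theorem degree_sumPlaces (h : IsRRField K F) (S : Finset (Place K F)) :
    Divisor.degree (sumPlaces S) = S.card := by
  induction S using Finset.cons_induction with
  | empty => simp
  | cons P S hP ih =>
    rw [sumPlaces_cons hP, degree_add_single h, ih, Finset.card_cons]
    push_cast
    ring

/-- adding places one at a time, each of which enlarges `L(D)`, enlarges `ℓ` by the number of
places. -/
theorem ell_add_sumPlaces_ge (h : IsRRField K F) (D : Divisor K F) (S : Finset (Place K F))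
    (hS : ∀ P ∈ S, ell (D + Finsupp.single P 1) = ell D + 1) :
    ell D + S.card ≤ ell (D + sumPlaces S) := by
  induction S using Finset.cons_induction with
  | empty => simp
  | cons P S hP ih =>
    have ih' := ih fun Q hQ => hS Q (Finset.mem_cons.mpr (Or.inr hQ))
    obtain ⟨f, hf, hfD⟩ := (ell_add_single_eq_iff h D P).mp (hS P (Finset.mem_cons_self P S))
    obtain ⟨hf0, hord⟩ := ord_eq_of_mem_add_single_of_not_mem hf hfD
    have hle : D + Finsupp.single P 1 ≤ D + sumPlaces S + Finsupp.single P 1 := by
      have := sumPlaces_nonneg S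
      intro Q
      have hQ := this Q
      simp only [Finsupp.add_apply, Finsupp.zero_apply] at hQ ⊢
      omega
    have hf' : f ∈ riemannRochSpace (D + sumPlaces S + Finsupp.single P 1) :=
      riemannRochSpace_mono hle hf
    have hfD' : f ∉ riemannRochSpace (D + sumPlaces S) := by
      intro hmem
      have := ((mem_riemannRochSpace_iff.mp hmem) P).resolve_left hf0
      rw [Finsupp.add_apply, sumPlaces_apply_of_not_mem hP, hord] at this
      omega
    have hstep : ell (D + sumPlaces S + Finsupp.single P 1) = ell (D + sumPlaces S) + 1 :=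
      (ell_add_single_eq_iff h _ P).mpr ⟨f, hf', hfD'⟩
    rw [sumPlaces_cons hP, ← add_assoc, hstep, Finset.card_cons]
    omega

/-- **Step lemma.** If `ℓ(D) > deg D + 1 - g` (i.e. `H¹(D) ≠ 0`), then outside any finite set of
places there is a place `P` with `ℓ(D + P) = ℓ(D)`. -/
theorem exists_place_ell_add_single_eq (h : IsRRField K F) [Infinite (Place K F)]
    (D : Divisor K F) (hD : Divisor.degree D + 1 - (genusFF K F : ℤ) < (ell D : ℤ))
    (T : Finset (Place K F)) :
    ∃ P, P ∉ T ∧ ell (D + Finsupp.single P 1) = ell D := by
  classical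
  by_contra hcon
  push Not at hcon
  have hall : ∀ P, P ∉ T → ell (D + Finsupp.single P 1) = ell D + 1 := by
    intro P hP
    have h1 := ell_add_single_le h D P
    have h2 := ell_mono h (le_add_single D P)
    have h3 := hcon P hP
    omega
  obtain ⟨c, hc⟩ := exists_idx_eq_zero (K := K) (F := F) h
  -- choose many places outside `T`
  set n : ℕ := (c - Divisor.degree D).toNat with hn
  have hinf : (↑T : Set (Place K F))ᶜ.Infinite := T.finite_toSet.infinite_compl
  obtain ⟨S, hST, hScard⟩ := hinf.exists_subset_card_eq n
  have hge := ell_add_sumPlaces_ge h D S fun P hP => hall P (by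
    have := hST hP
    simpa using this)
  have hdeg : Divisor.degree (D + sumPlaces S) = Divisor.degree D + n := by
    rw [map_add, degree_sumPlaces h, hScard]
  have hcle : c ≤ Divisor.degree (D + sumPlaces S) := by
    rw [hdeg, hn]
    have := Int.self_le_toNat (c - Divisor.degree D)
    omega
  have hrr := riemann_roch_H1 h (D + sumPlaces S)
  rw [hc _ hcle, hdeg] at hrr
  have : ((ell D + S.card : ℕ) : ℤ) ≤ (ell (D + sumPlaces S) : ℤ) := by exact_mod_cast hge
  rw [hScard] at this
  push_cast at this hrr
  omega

/-- **(NS)** Outside any finite set `T` of places there are `n ≤ g` distinct places whose sum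
`R` satisfies `ℓ(R) = 1`, i.e. `L(R) = K`. -/
theorem exists_nonspecial (h : IsRRField K F) [Infinite (Place K F)]
    (T : Finset (Place K F)) (n : ℕ) (hn : n ≤ genusFF K F) :
    ∃ S : Finset (Place K F), Disjoint S T ∧ S.card = n ∧ ell (sumPlaces S) = 1 := by
  classical
  induction n with
  | zero => exact ⟨∅, Finset.disjoint_empty_left T, rfl, by rw [sumPlaces_empty, ell_zero h]⟩
  | succ n ih =>
    obtain ⟨S, hST, hScard, hell⟩ := ih (by omega)
    have hD : Divisor.degree (sumPlaces S) + 1 - (genusFF K F : ℤ) < (ell (sumPlaces S) : ℤ) := by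
      rw [degree_sumPlaces h, hScard, hell]
      push_cast
      omega
    obtain ⟨P, hP, hPell⟩ := exists_place_ell_add_single_eq h (sumPlaces S) hD (T ∪ S)
    rw [Finset.mem_union, not_or] at hP
    refine ⟨Finset.cons P S hP.2, ?_, ?_, ?_⟩
    · rw [Finset.disjoint_left]
      intro Q hQ
      rcases Finset.mem_cons.mp hQ with rfl | hQ
      · exact hP.1
      · exact Finset.disjoint_left.mp hST hQ
    · rw [Finset.card_cons, hScard]
    · rw [sumPlaces_cons hP.2, hPell, hell]

/-- `L(R) = K` in the form used by the KEY LEMMA: every element of `L(R)` is constant. -/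
theorem eq_algebraMap_of_mem_of_ell_eq_one (h : IsRRField K F) {D : Divisor K F} (hD : 0 ≤ D)
    (hell : ell D = 1) {f : F} (hf : f ∈ riemannRochSpace D) :
    ∃ c : K, f = algebraMap K F c := by
  have hfin := finite_riemannRochSpace h D
  have h1 : (1 : F) ∈ riemannRochSpace D :=
    riemannRochSpace_mono hD (by
      have := algebraMap_mem_riemannRochSpace_zero (K := K) (F := F) 1
      simpa using this)
  have hne : (⟨1, h1⟩ : riemannRochSpace D) ≠ 0 := by
    intro h0
    have := congrArg Subtype.val h0
    simp at this
  obtain ⟨c, hc⟩ := (finrank_eq_one_iff_of_nonzero' (⟨1, h1⟩ : riemannRochSpace D) hne).mp hell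
    ⟨f, hf⟩
  refine ⟨c, ?_⟩
  have := congrArg Subtype.val hc
  simp only [Submodule.coe_smul] at this
  rw [← this, Algebra.algebraMap_eq_smul_one]

/-- a function field over an infinite field has infinitely many places. -/
theorem infinite_place (h : IsRRField K F) [Infinite K] : Infinite (Place K F) := by
  classical
  obtain ⟨x, hx, hfd, s, hs, hsum⟩ := h.exists_x
  have hspos : s.Nonempty := by
    by_contra hne
    rw [Finset.not_nonempty_iff_eq_empty] at hne
    rw [hne, Finset.sum_empty] at hsum
    have hpos : 0 < Module.finrank K⟮x⟯ F := Module.finrank_pos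
    omega
  obtain ⟨P₀, hP₀⟩ := hspos
  have hP₀neg : P₀.ord x < 0 := (hs P₀).mp hP₀
  -- every `x - c` has a zero
  have hzero : ∀ c : K, ∃ P : Place K F, 0 < P.ord (x - algebraMap K F c) := by
    intro c
    have hne : x - algebraMap K F c ≠ 0 := by
      intro h0
      rw [sub_eq_zero] at h0
      have : IsAlgebraic K x := h0 ▸ isAlgebraic_algebraMap c
      exact hx this
    by_contra hcon
    push Not at hcon
    -- the divisor of `x - c` is `≤ 0`, of degree `0`, hence `0`; but `P₀` is a pole
    have hle : divOf h (x - algebraMap K F c) ≤ 0 := by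
      intro P
      rw [divOf_apply]
      exact hcon P
    have hdeg : Divisor.degree (divOf h (x - algebraMap K F c)) = Divisor.degree (0 : Divisor K F) := by
      rw [degree_divOf, map_zero]
    have heq := eq_of_le_of_degree_eq h hle hdeg
    have hP : P₀.ord (x - algebraMap K F c) = 0 := by
      rw [← divOf_apply h, heq]
      rfl
    have hx' : x = (x - algebraMap K F c) + algebraMap K F c := by ring
    have hmem1 : x - algebraMap K F c ∈ P₀.toValuationSubring :=
      Fermat.Agent.S24Res.mem_of_ord_nonneg P₀ (le_of_eq hP.symm)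
    have hmem : x ∈ P₀.toValuationSubring := by
      rw [hx']
      exact add_mem hmem1 (P₀.algebraMap_mem' c)
    have := Fermat.Agent.S24Res.ord_nonneg_of_mem P₀ hmem
    omega
  choose Z hZ using hzero
  have hinj : Function.Injective Z := by
    intro c c' hcc
    by_contra hne
    have h1 := hZ c
    have h2 := hZ c'
    rw [← hcc] at h2
    -- `(x - c') - (x - c) = c - c'` is a nonzero constant with positive order: impossible
    have hdiff : (x - algebraMap K F c') - (x - algebraMap K F c) = algebraMap K F (c - c') := by
      rw [map_sub]; ring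
    have hcne : c - c' ≠ 0 := sub_ne_zero.mpr hne
    have hord0 : (Z c).ord (algebraMap K F (c - c')) = 0 :=
      Fermat.Agent.S24Res.ord_algebraMap (Z c) (c - c')
    have hne1 : x - algebraMap K F c' ≠ 0 := by
      intro h0; rw [h0] at h2; simp at h2
    have hne2 : -(x - algebraMap K F c) ≠ 0 := by
      intro h0; rw [neg_eq_zero] at h0; rw [h0] at h1; simp at h1
    have hsum_ne : (x - algebraMap K F c') + -(x - algebraMap K F c) ≠ 0 := by
      rw [← sub_eq_add_neg, hdiff]
      exact (map_ne_zero _).mpr hcne
    have hge := Fermat.Agent.S24Res.ord_add_ge (Z c) hne1 hne2 hsum_ne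
    rw [← sub_eq_add_neg, hdiff, hord0] at hge
    have hneg : (Z c).ord (-(x - algebraMap K F c)) = (Z c).ord (x - algebraMap K F c) := by
      have : -(x - algebraMap K F c) = (-1 : F) * (x - algebraMap K F c) := by ring
      rw [this, (Z c).ord_mul (by norm_num) (by intro h0; rw [h0] at h1; simp at h1)]
      have : (Z c).ord (-1 : F) = 0 := by
        have := Fermat.Agent.S24Res.ord_algebraMap (Z c) (-1 : K)
        simpa using this
      rw [this, zero_add]
    rw [hneg] at hge
    have := lt_min h2 h1
    omega
  exact Infinite.of_injective Z hinj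

end Fermat.Agent.RR
end
end MergeWrap_Lib_RR_NonSpecial
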