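import Mathlib
import Fermat.Prelude.Def_AlgebraicCurve_Repartitions
import Fermat.Agent.MU.Lib.RR.RRI

section MergeWrap_Lib_RR_DualityAdeles -- from Lib/RR/DualityAdeles.lean

set_option autoImplicit false

namespace Fermat.Agent.RRDual

open AlgebraicCurve WithZero

variable {K F : Type*} [Field K] [Field F] [Algebra K F]

/-! ### membership in `𝔸` -/

/-- an adele built from a function bounded by a divisor -/
def adeleOfLe (D : Divisor K F) (α : Place K F → F)
    (h : ∀ v : Place K F, v.adicValuation (α v) ≤ exp (D v)) : ↥(repartitions K F) :=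
  ⟨α, mem_repartitions_of_forall_le_exp D α h⟩

@[simp] theorem adeleOfLe_coe (D : Divisor K F) (α : Place K F → F)
    (h : ∀ v : Place K F, v.adicValuation (α v) ≤ exp (D v)) :
    ((adeleOfLe D α h : ↥(repartitions K F)) : Place K F → F) = α := rfl

theorem adeleOfLe_mem (D : Divisor K F) (α : Place K F → F)
    (h : ∀ v : Place K F, v.adicValuation (α v) ≤ exp (D v)) :
    adeleOfLe D α h ∈ repartitionsOf D := h

theorem mem_repartitionsOf_def {D : Divisor K F} {α : ↥(repartitions K F)} :
    α ∈ repartitionsOf D ↔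
      ∀ v : Place K F, v.adicValuation ((α : Place K F → F) v) ≤ exp (D v) := Iff.rfl

/-! ### `𝔸(D ⊔ E) = 𝔸(D) + 𝔸(E)` -/

theorem repartitionsOf_sup (D E : Divisor K F) :
    repartitionsOf (D ⊔ E) = repartitionsOf D ⊔ repartitionsOf E := by
  classical
  apply le_antisymm
  · intro α hα
    rw [mem_repartitionsOf_def] at hα
    -- split
    let β : Place K F → F := fun v =>
      if v.adicValuation ((α : Place K F → F) v) ≤ exp (D v) then (α : Place K F → F) v else 0
    have hβ : ∀ v : Place K F, v.adicValuation (β v) ≤ exp (D v) := by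
      intro v
      by_cases h : v.adicValuation ((α : Place K F → F) v) ≤ exp (D v)
      · simp only [β, if_pos h]; exact h
      · simp only [β, if_neg h, map_zero]; exact zero_le
    let γ : Place K F → F := fun v =>
      if v.adicValuation ((α : Place K F → F) v) ≤ exp (D v) then 0 else (α : Place K F → F) v
    have hγ : ∀ v : Place K F, v.adicValuation (γ v) ≤ exp (E v) := by
      intro v
      by_cases h : v.adicValuation ((α : Place K F → F) v) ≤ exp (D v)
      · simp only [γ, if_pos h, map_zero]; exact zero_le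
      · simp only [γ, if_neg h]
        have h1 := hα v
        rw [Finsupp.sup_apply] at h1
        rcases le_total (D v) (E v) with hDE | hDE
        · rwa [sup_eq_right.mpr hDE] at h1
        · rw [sup_eq_left.mpr hDE] at h1
          exact absurd h1 h
    have hsum : α = adeleOfLe D β hβ + adeleOfLe E γ hγ := by
      apply Subtype.ext
      funext v
      show (α : Place K F → F) v = β v + γ v
      by_cases h : v.adicValuation ((α : Place K F → F) v) ≤ exp (D v)
      · simp only [β, γ, if_pos h, add_zero]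
      · simp only [β, γ, if_neg h, zero_add]
    rw [hsum]
    exact Submodule.add_mem_sup (adeleOfLe_mem D β hβ) (adeleOfLe_mem E γ hγ)
  · exact sup_le (repartitionsOf_mono le_sup_left) (repartitionsOf_mono le_sup_right)

/-! ### multiplication by an element of `F` -/

/-- multiplication by `x : F` on adeles, as a `K`-linear map -/
noncomputable def mulF (x : F) : ↥(repartitions K F) →ₗ[K] ↥(repartitions K F) :=
  DistribSMul.toLinearMap K ↥(repartitions K F) x

@[simp] theorem mulF_apply (x : F) (α : ↥(repartitions K F)) : mulF (K := K) x α = x • α := rfl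

theorem coe_smul_apply (x : F) (α : ↥(repartitions K F)) (v : Place K F) :
    ((x • α : ↥(repartitions K F)) : Place K F → F) v = x * (α : Place K F → F) v := rfl

theorem mulF_one : mulF (K := K) (F := F) 1 = LinearMap.id := by
  ext α; simp

theorem mulF_mul (x y : F) : mulF (K := K) (x * y) = (mulF x).comp (mulF y) := by
  ext α; simp [mul_smul]

theorem mulF_principal (x : F) {α : ↥(repartitions K F)} (hα : α ∈ principalRepartitions K F) :
    mulF (K := K) x α ∈ principalRepartitions K F := by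
  rw [mem_principalRepartitions_iff] at hα ⊢
  obtain ⟨f, hf⟩ := hα
  refine ⟨x * f, ?_⟩
  funext v
  rw [mulF_apply, coe_smul_apply, hf]

/-- if `div x = Dx` then `x • 𝔸(D) ⊆ 𝔸(D - Dx)` -/
theorem mulF_mem_repartitionsOf {x : F} (hx : x ≠ 0) {Dx : Divisor K F}
    (hDx : ∀ v : Place K F, Dx v = v.ord x) {D : Divisor K F} {α : ↥(repartitions K F)}
    (hα : α ∈ repartitionsOf D) : mulF (K := K) x α ∈ repartitionsOf (D - Dx) := by
  intro v
  show v.adicValuation (x * (α : Place K F → F) v) ≤ exp ((D - Dx) v)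
  rw [map_mul, v.adicValuation_eq_exp_neg_ord hx, Finsupp.sub_apply, hDx v,
    show D v - v.ord x = -v.ord x + D v by ring, exp_add]
  exact mul_le_mul_right (hα v) _

end Fermat.Agent.RRDual
end MergeWrap_Lib_RR_DualityAdeles

section MergeWrap_Lib_RR_DualityWeil -- from Lib/RR/DualityWeil.lean

set_option autoImplicit false

namespace Fermat.Agent.RRDual

open AlgebraicCurve WithZero

variable {K F : Type*} [Field K] [Field F] [Algebra K F]

/-! ### the spaces `Ω(D)` -/

/-- Weil differentials vanishing on `𝔸(D) + F`. -/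
def weilDiff (D : Divisor K F) : Submodule K (Module.Dual K ↥(repartitions K F)) :=
  (repartitionsOf D ⊔ principalRepartitions K F).dualAnnihilator

theorem mem_weilDiff {D : Divisor K F} {ω : Module.Dual K ↥(repartitions K F)} :
    ω ∈ weilDiff D ↔ (∀ α ∈ repartitionsOf D, ω α = 0) ∧
      (∀ α ∈ principalRepartitions K F, ω α = 0) := by
  rw [weilDiff, Submodule.mem_dualAnnihilator]
  constructor
  · intro h
    exact ⟨fun α hα => h α (Submodule.mem_sup_left hα), fun α hα => h α (Submodule.mem_sup_right hα)⟩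
  · rintro ⟨h1, h2⟩ α hα
    obtain ⟨β, hβ, γ, hγ, rfl⟩ := Submodule.mem_sup.mp hα
    rw [map_add, h1 β hβ, h2 γ hγ, add_zero]

theorem weilDiff_anti {D E : Divisor K F} (h : D ≤ E) : weilDiff E ≤ weilDiff D := by
  intro ω hω
  rw [mem_weilDiff] at hω ⊢
  exact ⟨fun α hα => hω.1 α (repartitionsOf_mono h hα), hω.2⟩

theorem weilDiff_inf_le (D E : Divisor K F) : weilDiff D ⊓ weilDiff E ≤ weilDiff (D ⊔ E) := by
  intro ω hω
  obtain ⟨h1, h2⟩ := Submodule.mem_inf.mp hω
  rw [mem_weilDiff] at h1 h2 ⊢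
  refine ⟨fun α hα => ?_, h1.2⟩
  rw [repartitionsOf_sup] at hα
  obtain ⟨β, hβ, γ, hγ, rfl⟩ := Submodule.mem_sup.mp hα
  rw [map_add, h1.1 β hβ, h2.1 γ hγ, add_zero]

/-- `Ω(D)` is the dual of `H¹(D)`. -/
noncomputable def weilDiffEquiv (D : Divisor K F) : Module.Dual K (H1 D) ≃ₗ[K] ↥(weilDiff D) :=
  Submodule.dualQuotEquivDualAnnihilator (repartitionsOf D ⊔ principalRepartitions K F)

theorem finrank_weilDiff (D : Divisor K F) [Module.Finite K (H1 D)] :
    Module.finrank K ↥(weilDiff D) = Module.finrank K (H1 D) := by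
  rw [← (weilDiffEquiv D).finrank_eq, Subspace.dual_finrank_eq]

theorem finite_weilDiff (D : Divisor K F) [Module.Finite K (H1 D)] :
    Module.Finite K ↥(weilDiff D) :=
  Module.Finite.equiv (weilDiffEquiv D)

/-! ### twisting by `x : F` -/

/-- `twist x ω = ω ∘ (x • ·)`, linear in `ω`. -/
noncomputable def twist (x : F) :
    Module.Dual K ↥(repartitions K F) →ₗ[K] Module.Dual K ↥(repartitions K F) :=
  LinearMap.lcomp K K (mulF x)

@[simp] theorem twist_apply (x : F) (ω : Module.Dual K ↥(repartitions K F))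
    (α : ↥(repartitions K F)) : twist x ω α = ω (x • α) := rfl

theorem twist_one (ω : Module.Dual K ↥(repartitions K F)) : twist 1 ω = ω := by
  ext α; simp

theorem twist_zero (ω : Module.Dual K ↥(repartitions K F)) : twist 0 ω = 0 := by
  ext α; simp

theorem twist_twist (x y : F) (ω : Module.Dual K ↥(repartitions K F)) :
    twist x (twist y ω) = twist (y * x) ω := by
  ext α; simp [mul_smul]

theorem twist_add (x y : F) (ω : Module.Dual K ↥(repartitions K F)) :
    twist (x + y) ω = twist x ω + twist y ω := by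
  ext α; simp [add_smul]

theorem twist_smul (c : K) (x : F) (ω : Module.Dual K ↥(repartitions K F)) :
    twist (c • x) ω = c • twist x ω := by
  ext α
  simp only [twist_apply, LinearMap.smul_apply, smul_assoc]
  exact ω.map_smul c (x • α)

theorem twist_inv_twist {x : F} (hx : x ≠ 0) (ω : Module.Dual K ↥(repartitions K F)) :
    twist x⁻¹ (twist x ω) = ω := by
  rw [twist_twist, mul_inv_cancel₀ hx, twist_one]

theorem twist_ne_zero {x : F} (hx : x ≠ 0) {ω : Module.Dual K ↥(repartitions K F)}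
    (hω : ω ≠ 0) : twist x ω ≠ 0 := by
  intro h
  apply hω
  rw [← twist_inv_twist hx ω, h, map_zero]

/-- if `div x = Dx` and `ω ∈ Ω(D)` then `x ω ∈ Ω(D + Dx)` -/
theorem twist_mem_weilDiff {x : F} (hx : x ≠ 0) {Dx : Divisor K F}
    (hDx : ∀ v : Place K F, Dx v = v.ord x) {D : Divisor K F}
    {ω : Module.Dual K ↥(repartitions K F)} (hω : ω ∈ weilDiff D) :
    twist x ω ∈ weilDiff (D + Dx) := by
  rw [mem_weilDiff] at hω ⊢
  refine ⟨fun α hα => ?_, fun α hα => ?_⟩
  · have := mulF_mem_repartitionsOf (K := K) hx hDx hα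
    rw [add_sub_cancel_right] at this
    exact hω.1 _ this
  · exact hω.2 _ (mulF_principal x hα)

end Fermat.Agent.RRDual
end MergeWrap_Lib_RR_DualityWeil

section MergeWrap_Lib_RR_DualityBase -- from Lib/RR/DualityBase.lean

set_option autoImplicit false

namespace Fermat.Agent.RRDual

open AlgebraicCurve WithZero

/-- The inputs of the duality theorem (outputs of RR1–RR3):
principal divisors, places of positive degree, finiteness of `L(D)` and `H¹(D)`,
`ℓ(D) - i(D) = deg D + 1 - g` and Riemann's theorem `i(D) = 0` for `deg D ≥ c`. -/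
structure RRBase (K F : Type*) [Field K] [Field F] [Algebra K F] : Prop where
  hasPD : HasPrincipalDivisors K F
  deg_pos : ∀ v : Place K F, 0 < v.deg
  nonempty : Nonempty (Place K F)
  finite_L : ∀ D : Divisor K F, Module.Finite K ↥(riemannRochSpace D)
  finite_H1 : ∀ D : Divisor K F, Module.Finite K (H1 D)
  rr : ∀ D : Divisor K F, (Module.finrank K ↥(riemannRochSpace D) : ℤ)
      - (Module.finrank K (H1 D) : ℤ) = Divisor.degree D + 1 - (genusFF K F : ℤ)
  riemann : ∃ c : ℤ, ∀ D : Divisor K F, c ≤ Divisor.degree D → Module.finrank K (H1 D) = 0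

variable {K F : Type*} [Field K] [Field F] [Algebra K F]

/-! ### divisors -/

theorem degree_nonneg_of_nonneg {D : Divisor K F} (hD : 0 ≤ D) : 0 ≤ Divisor.degree D := by
  classical
  have : Divisor.degree D = D.sum fun v n => n * (v.deg : ℤ) := by
    simp [Divisor.degree, Finsupp.liftAddHom_apply]
  rw [this, Finsupp.sum]
  exact Finset.sum_nonneg fun v _ => mul_nonneg (hD v) (Int.natCast_nonneg _)

theorem degree_mono {D E : Divisor K F} (h : D ≤ E) : Divisor.degree D ≤ Divisor.degree E := by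
  have h1 : 0 ≤ E - D := sub_nonneg.mpr h
  have := degree_nonneg_of_nonneg h1
  rw [map_sub] at this
  linarith

theorem eq_zero_of_nonneg_of_degree_le (hdeg : ∀ v : Place K F, 0 < v.deg) {D : Divisor K F}
    (hD : 0 ≤ D) (h : Divisor.degree D ≤ 0) : D = 0 := by
  classical
  have hsum : Divisor.degree D = D.sum fun v n => n * (v.deg : ℤ) := by
    simp [Divisor.degree, Finsupp.liftAddHom_apply]
  rw [hsum, Finsupp.sum] at h
  have hnn : ∀ v ∈ D.support, 0 ≤ D v * (v.deg : ℤ) :=
    fun v _ => mul_nonneg (hD v) (Int.natCast_nonneg _)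
  have hz := (Finset.sum_eq_zero_iff_of_nonneg hnn).mp (le_antisymm h (Finset.sum_nonneg hnn))
  ext v
  by_cases hv : v ∈ D.support
  · have := hz v hv
    have hpos : (0 : ℤ) < (v.deg : ℤ) := by exact_mod_cast hdeg v
    rcases mul_eq_zero.mp this with h0 | h0
    · simpa using h0
    · omega
  · simpa using Finsupp.notMem_support_iff.mp hv

/-! ### `L(D)` -/

theorem mem_riemannRochSpace_of_div {x : F} (hx : x ≠ 0) {Dx : Divisor K F}
    (hDx : ∀ v : Place K F, Dx v = v.ord x) {E : Divisor K F} :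
    x ∈ riemannRochSpace E ↔ -E ≤ Dx := by
  rw [mem_riemannRochSpace_iff]
  constructor
  · intro h v
    rcases h v with h0 | h0
    · exact absurd h0 hx
    · rw [Finsupp.neg_apply, hDx v]; exact h0
  · intro h v
    right
    have := h v
    rwa [Finsupp.neg_apply, hDx v] at this

namespace RRBase

variable (B : RRBase K F)
include B

theorem exists_div {x : F} (hx : x ≠ 0) :
    ∃ Dx : Divisor K F, (∀ v : Place K F, Dx v = v.ord x) ∧ Divisor.degree Dx = 0 :=
  B.hasPD.exists_divisor x hx

theorem riemannRochSpace_eq_bot {D : Divisor K F} (hD : Divisor.degree D < 0) :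
    riemannRochSpace D = ⊥ := by
  rw [eq_bot_iff]
  intro x hx
  rw [Submodule.mem_bot]
  by_contra hx0
  obtain ⟨Dx, hDx, hdeg⟩ := B.exists_div hx0
  have h1 := (mem_riemannRochSpace_of_div hx0 hDx).mp hx
  have h2 := degree_mono h1
  rw [map_neg, hdeg] at h2
  omega

theorem finrank_L_eq_zero {D : Divisor K F} (hD : Divisor.degree D < 0) :
    Module.finrank K ↥(riemannRochSpace D) = 0 := by
  rw [B.riemannRochSpace_eq_bot hD]
  exact finrank_bot K F

/-- `i(D) = ℓ(D) - deg D - 1 + g` -/
theorem finrank_H1 (D : Divisor K F) : (Module.finrank K (H1 D) : ℤ) =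
    (Module.finrank K ↥(riemannRochSpace D) : ℤ) - Divisor.degree D - 1 + (genusFF K F : ℤ) := by
  have := B.rr D
  omega

theorem finrank_weilDiff_eq (D : Divisor K F) : (Module.finrank K ↥(weilDiff D) : ℤ) =
    (Module.finrank K ↥(riemannRochSpace D) : ℤ) - Divisor.degree D - 1 + (genusFF K F : ℤ) := by
  have := B.finite_H1 D
  rw [finrank_weilDiff, B.finrank_H1]

/-- Riemann's inequality `ℓ(D) ≥ deg D + 1 - g`. -/
theorem riemann_ineq (D : Divisor K F) :
    Divisor.degree D + 1 - (genusFF K F : ℤ) ≤ (Module.finrank K ↥(riemannRochSpace D) : ℤ) := by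
  have := B.rr D
  have h2 : (0 : ℤ) ≤ (Module.finrank K (H1 D) : ℤ) := Int.natCast_nonneg _
  omega

theorem weilDiff_eq_bot_of_le : ∃ c : ℤ, ∀ D : Divisor K F, c ≤ Divisor.degree D →
    weilDiff D = ⊥ := by
  obtain ⟨c, hc⟩ := B.riemann
  refine ⟨c, fun D hD => ?_⟩
  have := B.finite_H1 D
  have := finite_weilDiff D
  apply Submodule.finrank_eq_zero.mp
  rw [finrank_weilDiff, hc D hD]

end RRBase

end Fermat.Agent.RRDual
end MergeWrap_Lib_RR_DualityBase

section MergeWrap_Lib_RR_Duality -- from Lib/RR/Duality.lean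

set_option autoImplicit false

namespace Fermat.Agent.RRDual

open AlgebraicCurve WithZero

variable {K F : Type*} [Field K] [Field F] [Algebra K F]

/-! ### the map `L(E) → Ω(T)`, `x ↦ x ω` -/

/-- `x ↦ twist x ω` as a `K`-linear map `F → 𝔸*`. -/
noncomputable def twistL (ω : Module.Dual K ↥(repartitions K F)) :
    F →ₗ[K] Module.Dual K ↥(repartitions K F) where
  toFun x := twist x ω
  map_add' x y := twist_add x y ω
  map_smul' c x := twist_smul c x ω

@[simp] theorem twistL_apply (ω : Module.Dual K ↥(repartitions K F)) (x : F) :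
    twistL ω x = twist x ω := rfl

namespace RRBase

variable (B : RRBase K F)
include B

theorem twist_mem_of_mem {D E T : Divisor K F} (hT : T + E ≤ D)
    {ω : Module.Dual K ↥(repartitions K F)} (hω : ω ∈ weilDiff D) {x : F}
    (hx : x ∈ riemannRochSpace E) : twist x ω ∈ weilDiff T := by
  by_cases hx0 : x = 0
  · rw [hx0, twist_zero]; exact Submodule.zero_mem _
  · obtain ⟨Dx, hDx, -⟩ := B.exists_div hx0
    have h1 := (mem_riemannRochSpace_of_div hx0 hDx).mp hx
    have h2 := twist_mem_weilDiff hx0 hDx hω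
    refine weilDiff_anti ?_ h2
    intro v
    have h3 := hT v
    have h4 := h1 v
    simp only [Finsupp.add_apply, Finsupp.neg_apply] at h3 h4 ⊢
    omega

/-- for `ω ∈ Ω(D)` and `T + E ≤ D`: the map `L(E) → Ω(T)`, `x ↦ x ω`. -/
noncomputable def twistMap {D E T : Divisor K F} (hT : T + E ≤ D)
    {ω : Module.Dual K ↥(repartitions K F)} (hω : ω ∈ weilDiff D) :
    ↥(riemannRochSpace E) →ₗ[K] ↥(weilDiff T) :=
  LinearMap.codRestrict (weilDiff T) ((twistL ω).domRestrict (riemannRochSpace E))
    (fun x => B.twist_mem_of_mem hT hω x.2)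

theorem twistMap_coe {D E T : Divisor K F} (hT : T + E ≤ D)
    {ω : Module.Dual K ↥(repartitions K F)} (hω : ω ∈ weilDiff D)
    (x : ↥(riemannRochSpace E)) :
    ((B.twistMap hT hω x : ↥(weilDiff T)) : Module.Dual K ↥(repartitions K F)) =
      twist (x : F) ω := rfl

theorem twistMap_injective {D E T : Divisor K F} (hT : T + E ≤ D)
    {ω : Module.Dual K ↥(repartitions K F)} (hω : ω ∈ weilDiff D) (hω0 : ω ≠ 0) :
    Function.Injective (B.twistMap hT hω : ↥(riemannRochSpace E) →ₗ[K] ↥(weilDiff T)) := by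
  intro x y hxy
  have h1 : twist (x : F) ω = twist (y : F) ω := by
    have := congrArg Subtype.val hxy
    rwa [twistMap_coe, twistMap_coe] at this
  have h2 : twist ((x : F) - (y : F)) ω = 0 := by
    rw [sub_eq_add_neg, twist_add, h1, ← twist_add, add_neg_cancel, twist_zero]
  by_contra hne
  exact twist_ne_zero (fun h => hne (Subtype.ext (sub_eq_zero.mp h))) hω0 h2

/-! ### Weil differentials form a one-dimensional `F`-space -/

omit B in
/-- two injective maps into a space of too small dimension have a common nonzero value -/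
theorem exists_common_value {V U₁ U₂ : Type*} [AddCommGroup V] [Module K V]
    [AddCommGroup U₁] [Module K U₁] [AddCommGroup U₂] [Module K U₂]
    [Module.Finite K V] [Module.Finite K U₁] [Module.Finite K U₂]
    (f₁ : U₁ →ₗ[K] V) (f₂ : U₂ →ₗ[K] V) (h₁ : Function.Injective f₁)
    (h₂ : Function.Injective f₂)
    (hdim : Module.finrank K V < Module.finrank K U₁ + Module.finrank K U₂) :
    ∃ (x₁ : U₁) (x₂ : U₂), f₁ x₁ = f₂ x₂ ∧ f₁ x₁ ≠ 0 := by
  have hker : LinearMap.ker (f₁.coprod (-f₂)) ≠ ⊥ := by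
    apply LinearMap.ker_ne_bot_of_finrank_lt
    rw [Module.finrank_prod]
    exact hdim
  obtain ⟨z, hz, hz0⟩ := Submodule.exists_mem_ne_zero_of_ne_bot hker
  rw [LinearMap.mem_ker, LinearMap.coprod_apply, LinearMap.neg_apply, ← sub_eq_add_neg,
    sub_eq_zero] at hz
  refine ⟨z.1, z.2, hz, fun h0 => hz0 ?_⟩
  have e1 : z.1 = 0 := h₁ (by rw [h0, map_zero])
  have e2 : z.2 = 0 := h₂ (by rw [← hz, h0, map_zero])
  exact Prod.ext e1 e2

theorem exists_twist_eq_aux {D₁ D₂ T : Divisor K F}
    {ω₁ ω₂ : Module.Dual K ↥(repartitions K F)}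
    (h₁ : ω₁ ∈ weilDiff D₁) (h₂ : ω₂ ∈ weilDiff D₂) (hω₁ : ω₁ ≠ 0) (hω₂ : ω₂ ≠ 0)
    (hT : Divisor.degree T < 0)
    (hbig : 3 * (genusFF K F : ℤ) - Divisor.degree D₁ - Divisor.degree D₂
      < - Divisor.degree T + 3) :
    ∃ x : F, ω₂ = twist x ω₁ := by
  have hT₁ : T + (D₁ - T) ≤ D₁ := by rw [add_sub_cancel]
  have hT₂ : T + (D₂ - T) ≤ D₂ := by rw [add_sub_cancel]
  have hfH : Module.Finite K (H1 T) := B.finite_H1 T
  have hfin : Module.Finite K ↥(weilDiff T) := finite_weilDiff T
  have hfL₁ : Module.Finite K ↥(riemannRochSpace (D₁ - T)) := B.finite_L (D₁ - T)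
  have hfL₂ : Module.Finite K ↥(riemannRochSpace (D₂ - T)) := B.finite_L (D₂ - T)
  have hV := B.finrank_weilDiff_eq T
  rw [B.finrank_L_eq_zero hT] at hV
  have hl₁ := B.riemann_ineq (D₁ - T)
  have hl₂ := B.riemann_ineq (D₂ - T)
  rw [map_sub] at hl₁ hl₂
  have hdim : Module.finrank K ↥(weilDiff T) < Module.finrank K ↥(riemannRochSpace (D₁ - T))
      + Module.finrank K ↥(riemannRochSpace (D₂ - T)) := by
    have : (Module.finrank K ↥(weilDiff T) : ℤ) <
        (Module.finrank K ↥(riemannRochSpace (D₁ - T)) : ℤ)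
          + (Module.finrank K ↥(riemannRochSpace (D₂ - T)) : ℤ) := by
      push_cast at hV
      linarith
    exact_mod_cast this
  obtain ⟨x₁, x₂, he, hne⟩ := exists_common_value (K := K) (V := ↥(weilDiff T))
    (U₁ := ↥(riemannRochSpace (D₁ - T))) (U₂ := ↥(riemannRochSpace (D₂ - T)))
    (B.twistMap hT₁ h₁) (B.twistMap hT₂ h₂)
    (B.twistMap_injective hT₁ h₁ hω₁) (B.twistMap_injective hT₂ h₂ hω₂) hdim
  have e : twist (x₁ : F) ω₁ = twist (x₂ : F) ω₂ := by
    have := congrArg Subtype.val he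
    rwa [twistMap_coe, twistMap_coe] at this
  have hx₂0 : (x₂ : F) ≠ 0 := by
    intro h
    apply hne
    apply Subtype.ext
    rw [twistMap_coe, e, h, twist_zero]
    rfl
  refine ⟨(x₁ : F) * (x₂ : F)⁻¹, ?_⟩
  rw [← twist_twist, e, twist_inv_twist hx₂0]

theorem exists_divisor_degree_lt (n : ℤ) : ∃ T : Divisor K F, Divisor.degree T < n := by
  obtain ⟨P⟩ := B.nonempty
  have hd : (0 : ℤ) < (P.deg : ℤ) := by exact_mod_cast B.deg_pos P
  refine ⟨Finsupp.single P (-(|n| + 1)), ?_⟩
  rw [Divisor.degree_single]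
  have h1 := neg_abs_le n
  have h2 : (|n| + 1) ≤ (|n| + 1) * (P.deg : ℤ) := by
    have := abs_nonneg n
    nlinarith
  linarith

/-- `dim_F Ω = 1`. -/
theorem exists_twist_eq {D₁ D₂ : Divisor K F} {ω₁ ω₂ : Module.Dual K ↥(repartitions K F)}
    (h₁ : ω₁ ∈ weilDiff D₁) (h₂ : ω₂ ∈ weilDiff D₂) (hω₁ : ω₁ ≠ 0) :
    ∃ x : F, ω₂ = twist x ω₁ := by
  by_cases hω₂ : ω₂ = 0
  · exact ⟨0, by rw [twist_zero, hω₂]⟩
  obtain ⟨T, hT⟩ := B.exists_divisor_degree_lt
    (min 0 (-(3 * (genusFF K F : ℤ) - Divisor.degree D₁ - Divisor.degree D₂)))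
  have hT0 : Divisor.degree T < 0 := lt_of_lt_of_le hT (min_le_left _ _)
  have hT1 := lt_of_lt_of_le hT (min_le_right _ _)
  exact B.exists_twist_eq_aux h₁ h₂ hω₁ hω₂ hT0 (by linarith)

/-! ### existence of a nonzero Weil differential -/

theorem exists_weilDiff_ne_zero :
    ∃ (ω : Module.Dual K ↥(repartitions K F)) (D : Divisor K F), ω ≠ 0 ∧ ω ∈ weilDiff D := by
  obtain ⟨T, hT⟩ := B.exists_divisor_degree_lt (-1)
  have hfH : Module.Finite K (H1 T) := B.finite_H1 T
  have hfin : Module.Finite K ↥(weilDiff T) := finite_weilDiff T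
  have hV := B.finrank_weilDiff_eq T
  rw [B.finrank_L_eq_zero (by linarith)] at hV
  have hpos : 0 < Module.finrank K ↥(weilDiff T) := by
    have : (0 : ℤ) < (Module.finrank K ↥(weilDiff T) : ℤ) := by
      have := Int.natCast_nonneg (genusFF K F)
      push_cast at hV
      linarith
    exact_mod_cast this
  have hnt : Nontrivial ↥(weilDiff T) := Module.nontrivial_of_finrank_pos (R := K) hpos
  obtain ⟨y, hy⟩ := exists_ne (0 : ↥(weilDiff T))
  exact ⟨y.1, T, fun h => hy (Subtype.ext h), y.2⟩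

/-! ### the divisor of a Weil differential -/

/-- the set of `D` with `ω ∈ Ω(D)` has a greatest element. -/
theorem exists_max_divisor {ω : Module.Dual K ↥(repartitions K F)} (hω : ω ≠ 0)
    {D₀ : Divisor K F} (h₀ : ω ∈ weilDiff D₀) :
    ∃ W : Divisor K F, ω ∈ weilDiff W ∧ ∀ D : Divisor K F, ω ∈ weilDiff D → D ≤ W := by
  obtain ⟨c, hc⟩ := B.weilDiff_eq_bot_of_le
  obtain ⟨ub, ⟨W, hW, hWdeg⟩, hub⟩ := Int.exists_greatest_of_bdd
    (P := fun n : ℤ => ∃ D : Divisor K F, ω ∈ weilDiff D ∧ Divisor.degree D = n)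
    ⟨c, fun z ⟨D, hD, hz⟩ => by
      by_contra hlt
      push Not at hlt
      have := hc D (by rw [hz]; exact hlt.le)
      rw [this, Submodule.mem_bot] at hD
      exact hω hD⟩
    ⟨Divisor.degree D₀, D₀, h₀, rfl⟩
  refine ⟨W, hW, fun D hD => ?_⟩
  have hsup : ω ∈ weilDiff (D ⊔ W) := weilDiff_inf_le D W (Submodule.mem_inf.mpr ⟨hD, hW⟩)
  have hdeg : Divisor.degree (D ⊔ W) ≤ ub := hub _ ⟨D ⊔ W, hsup, rfl⟩
  have hz : (D ⊔ W) - W = 0 := by
    apply eq_zero_of_nonneg_of_degree_le B.deg_pos
    · exact sub_nonneg.mpr le_sup_right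
    · rw [map_sub, hWdeg]; linarith
  have : D ⊔ W = W := sub_eq_zero.mp hz
  exact sup_eq_right.mp this

theorem mem_weilDiff_iff_le {ω : Module.Dual K ↥(repartitions K F)} (hω : ω ≠ 0)
    {D₀ : Divisor K F} (h₀ : ω ∈ weilDiff D₀) :
    ∃ W : Divisor K F, ∀ D : Divisor K F, ω ∈ weilDiff D ↔ D ≤ W := by
  obtain ⟨W, hW, hmax⟩ := B.exists_max_divisor hω h₀
  exact ⟨W, fun D => ⟨hmax D, fun hle => weilDiff_anti hle hW⟩⟩

end RRBase

end Fermat.Agent.RRDual
end MergeWrap_Lib_RR_Duality

section MergeWrap_Lib_RR_Weil -- from Lib/RR/Weil.lean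

set_option autoImplicit false

/-!
# Riemann-Roch library, RR4: Weil differentials, duality, Riemann-Roch

A Weil differential is a `K`-linear form on `A = repartitions K F` vanishing on `A(D) + F` for
some `D`.  `weilSpace D = Ω(D)` is the dual of `H¹(D)`.  `F` acts by `(f ω)(α) = ω(f α)`.
-/

noncomputable section

open AlgebraicCurve IntermediateField

namespace Fermat.Agent.RR

variable {K F : Type*} [Field K] [Field F] [Algebra K F]

/-- `Ω(D)`: linear forms on the adeles vanishing on `A(D) + F`. -/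
def weilSpace (D : Divisor K F) : Submodule K (↥(repartitions K F) →ₗ[K] K) where
  carrier := {ω | AF D ≤ LinearMap.ker ω}
  zero_mem' := by
    intro α _
    simp
  add_mem' := by
    intro ω₁ ω₂ h₁ h₂ α hα
    have e1 := h₁ hα
    have e2 := h₂ hα
    rw [LinearMap.mem_ker] at e1 e2 ⊢
    rw [LinearMap.add_apply, e1, e2, add_zero]
  smul_mem' := by
    intro c ω hω α hα
    have e1 := hω hα
    rw [LinearMap.mem_ker] at e1 ⊢
    rw [LinearMap.smul_apply, e1, smul_zero]

theorem mem_weilSpace_iff {D : Divisor K F} {ω : ↥(repartitions K F) →ₗ[K] K} :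
    ω ∈ weilSpace D ↔ AF D ≤ LinearMap.ker ω := Iff.rfl

theorem weilSpace_anti {D D' : Divisor K F} (hle : D ≤ D') : weilSpace D' ≤ weilSpace D :=
  fun _ hω => (AF_mono hle).trans hω

/-- multiplication by `f` on the adeles, as a `K`-linear map. -/
def mulAdele (f : F) : ↥(repartitions K F) →ₗ[K] ↥(repartitions K F) where
  toFun α := f • α
  map_add' α β := smul_add f α β
  map_smul' c α := smul_comm f c α

theorem mulAdele_apply (f : F) (α : ↥(repartitions K F)) (v : Place K F) :
    ((mulAdele (K := K) f α : ↥(repartitions K F)) : Place K F → F) v =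
      f * (α : Place K F → F) v := rfl

/-- the action of `F` on linear forms: `(f ω)(α) = ω(f α)`. -/
def smulWeil (f : F) (ω : ↥(repartitions K F) →ₗ[K] K) : ↥(repartitions K F) →ₗ[K] K :=
  ω.comp (mulAdele f)

theorem smulWeil_apply (f : F) (ω : ↥(repartitions K F) →ₗ[K] K) (α : ↥(repartitions K F)) :
    smulWeil f ω α = ω (f • α) := rfl

/-! ### bridge to `Fermat.Agent.RRDual` (helper80's core, proved against the bundle `RRBase`) -/

/-- the outputs of RR0-RR3 in the form used by `Fermat.Agent.RRDual`. -/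
theorem rrBase (h : IsRRField K F) : Fermat.Agent.RRDual.RRBase K F where
  hasPD := ⟨h.principal⟩
  deg_pos v := by rw [h.deg_one v]; exact Nat.one_pos
  nonempty := nonempty_place h
  finite_L := finite_riemannRochSpace h
  finite_H1 := finite_H1 h
  rr D := by
    have := riemann_roch_H1 h D
    simp only [ell, idx] at this
    omega
  riemann := exists_idx_eq_zero h

theorem weilSpace_eq (D : Divisor K F) : weilSpace D = Fermat.Agent.RRDual.weilDiff D := by
  ext ω
  rw [mem_weilSpace_iff, Fermat.Agent.RRDual.weilDiff, Submodule.mem_dualAnnihilator]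
  constructor
  · intro hle α hα
    exact LinearMap.mem_ker.mp (hle hα)
  · intro hω α hα
    exact LinearMap.mem_ker.mpr (hω α hα)

theorem smulWeil_eq_twist (f : F) (ω : ↥(repartitions K F) →ₗ[K] K) :
    smulWeil f ω = Fermat.Agent.RRDual.twist f ω := rfl

theorem divOf_spec (h : IsRRField K F) (f : F) : ∀ v : Place K F, divOf h f v = v.ord f :=
  fun v => divOf_apply h f v

/-- `dim_K Ω(D) = dim_K H¹(D)`. -/
theorem finrank_weilSpace (h : IsRRField K F) (D : Divisor K F) :
    Module.Finite K (weilSpace D) ∧ Module.finrank K (weilSpace D) = idx D := by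
  have hf : Module.Finite K (H1 D) := finite_H1 h D
  rw [weilSpace_eq]
  exact ⟨Fermat.Agent.RRDual.finite_weilDiff D, Fermat.Agent.RRDual.finrank_weilDiff D⟩

/-- `f Ω(D) ⊆ Ω(D + div f)`. -/
theorem smulWeil_mem (h : IsRRField K F) {D : Divisor K F} {ω : ↥(repartitions K F) →ₗ[K] K}
    (hω : ω ∈ weilSpace D) {f : F} (hf : f ≠ 0) : smulWeil f ω ∈ weilSpace (D + divOf h f) := by
  rw [weilSpace_eq] at hω ⊢
  exact Fermat.Agent.RRDual.twist_mem_weilDiff hf (divOf_spec h f) hω

theorem smulWeil_mem_iff (h : IsRRField K F) {D : Divisor K F}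
    {ω : ↥(repartitions K F) →ₗ[K] K} {f : F} (hf : f ≠ 0) :
    smulWeil f ω ∈ weilSpace (D + divOf h f) ↔ ω ∈ weilSpace D := by
  constructor
  · intro hmem
    have h1 := smulWeil_mem h hmem (inv_ne_zero hf)
    rw [divOf_inv, add_neg_cancel_right, smulWeil_eq_twist, smulWeil_eq_twist,
      Fermat.Agent.RRDual.twist_twist, mul_inv_cancel₀ hf, Fermat.Agent.RRDual.twist_one] at h1
    exact h1
  · intro hω
    exact smulWeil_mem h hω hf

theorem smulWeil_eq_zero_iff {ω : ↥(repartitions K F) →ₗ[K] K} {f : F} (hf : f ≠ 0) :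
    smulWeil f ω = 0 ↔ ω = 0 := by
  constructor
  · intro h0
    by_contra hne
    exact Fermat.Agent.RRDual.twist_ne_zero hf hne h0
  · rintro rfl
    exact map_zero (Fermat.Agent.RRDual.twist f)

/-- there is a nonzero Weil differential. -/
theorem exists_weil_ne_zero (h : IsRRField K F) :
    ∃ (ω : ↥(repartitions K F) →ₗ[K] K) (D : Divisor K F), ω ≠ 0 ∧ ω ∈ weilSpace D := by
  obtain ⟨ω, D, hω, hD⟩ := (rrBase h).exists_weilDiff_ne_zero
  exact ⟨ω, D, hω, by rw [weilSpace_eq]; exact hD⟩

/-- `dim_F Ω = 1`: any two Weil differentials are proportional over `F`. -/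
theorem exists_smulWeil_eq (h : IsRRField K F) {ω₁ ω₂ : ↥(repartitions K F) →ₗ[K] K}
    {D₁ D₂ : Divisor K F} (h₁ : ω₁ ∈ weilSpace D₁) (h₂ : ω₂ ∈ weilSpace D₂) (hne : ω₁ ≠ 0) :
    ∃ f : F, ω₂ = smulWeil f ω₁ := by
  rw [weilSpace_eq] at h₁ h₂
  exact (rrBase h).exists_twist_eq h₁ h₂ hne

/-- `Ω(D₁) ∩ Ω(D₂) = Ω(sup D₁ D₂)`. -/
theorem mem_weilSpace_sup (h : IsRRField K F) {ω : ↥(repartitions K F) →ₗ[K] K}
    {D₁ D₂ : Divisor K F} (h₁ : ω ∈ weilSpace D₁) (h₂ : ω ∈ weilSpace D₂) :
    ω ∈ weilSpace (D₁ ⊔ D₂) := by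
  rw [weilSpace_eq] at h₁ h₂ ⊢
  exact Fermat.Agent.RRDual.weilDiff_inf_le D₁ D₂ (Submodule.mem_inf.mpr ⟨h₁, h₂⟩)

/-- the divisor `(ω)` of a nonzero Weil differential. -/
theorem exists_divisor_weil (h : IsRRField K F) {ω : ↥(repartitions K F) →ₗ[K] K}
    (hne : ω ≠ 0) {D₁ : Divisor K F} (h₁ : ω ∈ weilSpace D₁) :
    ∃ W : Divisor K F, ∀ D : Divisor K F, ω ∈ weilSpace D ↔ D ≤ W := by
  rw [weilSpace_eq] at h₁
  obtain ⟨W, hW⟩ := (rrBase h).mem_weilDiff_iff_le hne h₁
  exact ⟨W, fun D => by rw [weilSpace_eq]; exact hW D⟩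

/-- **duality**: there is a (canonical) divisor `W` with `dim H¹(D) = ℓ(W - D)` for all `D`. -/
theorem exists_canonical (h : IsRRField K F) :
    ∃ W : Divisor K F, ∀ D : Divisor K F, idx D = ell (W - D) := by
  obtain ⟨ω, D₁, hω0, hωD₁⟩ := exists_weil_ne_zero h
  obtain ⟨W, hW⟩ := exists_divisor_weil h hω0 hωD₁
  have hωW : ω ∈ weilSpace W := (hW W).mpr le_rfl
  refine ⟨W, fun D => ?_⟩
  -- `smulWeil 0 ω = 0`
  have hzero : smulWeil (0 : F) ω = 0 := by
    ext α
    rw [smulWeil_apply, zero_smul, map_zero, LinearMap.zero_apply]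
  -- the map `x ↦ x ω` lands in `Ω(D)` for `x ∈ L(W - D)`
  have hmem : ∀ x : F, x ∈ riemannRochSpace (W - D) → smulWeil x ω ∈ weilSpace D := by
    intro x hx
    by_cases hx0 : x = 0
    · rw [hx0, hzero]
      exact (weilSpace D).zero_mem
    · have h1 : smulWeil x ω ∈ weilSpace (W + divOf h x) := smulWeil_mem h hωW hx0
      refine weilSpace_anti ?_ h1
      have h2 : -(W - D) ≤ divOf h x := (mem_riemannRochSpace_iff_le h hx0).mp hx
      rw [Finsupp.le_def] at h2 ⊢
      intro v
      have := h2 v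
      simp only [Finsupp.neg_apply, Finsupp.sub_apply, Finsupp.add_apply] at this ⊢
      linarith
  -- the linear map
  let φ : riemannRochSpace (W - D) →ₗ[K] weilSpace D :=
    { toFun := fun x => ⟨smulWeil (x : F) ω, hmem x x.2⟩
      map_add' := by
        intro x y
        apply Subtype.ext
        apply LinearMap.ext
        intro α
        simp only [Submodule.coe_add, smulWeil_apply, LinearMap.add_apply, add_smul, map_add]
      map_smul' := by
        intro c x
        apply Subtype.ext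
        apply LinearMap.ext
        intro α
        simp only [Submodule.coe_smul, smulWeil_apply, LinearMap.smul_apply, RingHom.id_apply,
          smul_assoc, map_smul] }
  have hφ_apply : ∀ x : riemannRochSpace (W - D), ((φ x : weilSpace D) :
      ↥(repartitions K F) →ₗ[K] K) = smulWeil (x : F) ω := fun _ => rfl
  have hinj : Function.Injective φ := by
    refine (injective_iff_map_eq_zero φ).mpr ?_
    intro x hx
    have h1 : smulWeil (x : F) ω = 0 := by
      rw [← hφ_apply, hx]
      rfl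
    by_contra hx0
    have hx0' : (x : F) ≠ 0 := fun h0 => hx0 (Subtype.ext h0)
    exact hω0 ((smulWeil_eq_zero_iff hx0').mp h1)
  have hsurj : Function.Surjective φ := by
    rintro ⟨ω', hω'⟩
    obtain ⟨x, hx⟩ := exists_smulWeil_eq h hωW hω' hω0
    by_cases hx0 : x = 0
    · refine ⟨0, ?_⟩
      apply Subtype.ext
      show smulWeil ((0 : riemannRochSpace (W - D)) : F) ω = ω'
      rw [Submodule.coe_zero, hzero, hx, hx0, hzero]
    · have h1 : smulWeil x ω ∈ weilSpace ((D - divOf h x) + divOf h x) := by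
        rw [sub_add_cancel, ← hx]
        exact hω'
      have h2 : ω ∈ weilSpace (D - divOf h x) := (smulWeil_mem_iff h hx0).mp h1
      have h3 : D - divOf h x ≤ W := (hW _).mp h2
      have hxL : x ∈ riemannRochSpace (W - D) := by
        rw [mem_riemannRochSpace_iff_le h hx0, Finsupp.le_def]
        intro v
        have := (Finsupp.le_def.mp h3) v
        simp only [Finsupp.neg_apply, Finsupp.sub_apply] at this ⊢
        linarith
      refine ⟨⟨x, hxL⟩, ?_⟩
      apply Subtype.ext
      show smulWeil x ω = ω'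
      exact hx.symm
  have e : riemannRochSpace (W - D) ≃ₗ[K] weilSpace D := LinearEquiv.ofBijective φ ⟨hinj, hsurj⟩
  rw [← (finrank_weilSpace h D).2, ell_def]
  exact e.finrank_eq.symm

/-- **Riemann-Roch**. -/
theorem riemann_roch (h : IsRRField K F) :
    ∃ W : Divisor K F, ∀ D : Divisor K F,
      (ell D : ℤ) = Divisor.degree D + 1 - (genusFF K F : ℤ) + (ell (W - D) : ℤ) := by
  obtain ⟨W, hW⟩ := exists_canonical h
  refine ⟨W, fun D => ?_⟩
  rw [← hW D]
  exact riemann_roch_H1 h D

/-- a canonical divisor has degree `2g - 2` and `ℓ(W) = g`. -/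
theorem canonical_degree (h : IsRRField K F) {W : Divisor K F}
    (hW : ∀ D : Divisor K F,
      (ell D : ℤ) = Divisor.degree D + 1 - (genusFF K F : ℤ) + (ell (W - D) : ℤ)) :
    Divisor.degree W = 2 * (genusFF K F : ℤ) - 2 ∧ ell W = genusFF K F := by
  have h0 := hW 0
  have hWW := hW W
  rw [sub_zero, ell_zero h, map_zero] at h0
  rw [sub_self, ell_zero h] at hWW
  have hg : (ell W : ℤ) = (genusFF K F : ℤ) := by
    push_cast at h0
    linarith
  refine ⟨?_, by exact_mod_cast hg⟩
  push_cast at hWW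
  linarith

/-- `ℓ(D) = deg D + 1 - g` for `deg D > 2g - 2`. -/
theorem ell_of_degree_gt (h : IsRRField K F) {D : Divisor K F}
    (hD : 2 * (genusFF K F : ℤ) - 2 < Divisor.degree D) :
    (ell D : ℤ) = Divisor.degree D + 1 - (genusFF K F : ℤ) := by
  obtain ⟨W, hW⟩ := riemann_roch h
  have hdeg := (canonical_degree h hW).1
  have hneg : Divisor.degree (W - D) < 0 := by
    rw [map_sub, hdeg]
    linarith
  have := hW D
  rw [ell_eq_zero_of_degree_neg h hneg] at this
  simpa using this

/-- `H¹(D) = 0` for `deg D > 2g - 2`. -/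
theorem idx_eq_zero_of_degree_gt (h : IsRRField K F) {D : Divisor K F}
    (hD : 2 * (genusFF K F : ℤ) - 2 < Divisor.degree D) : idx D = 0 := by
  have h1 := riemann_roch_H1 h D
  have h2 := ell_of_degree_gt h hD
  have h3 : (idx D : ℤ) = 0 := by linarith
  exact_mod_cast h3

end Fermat.Agent.RR
end
end MergeWrap_Lib_RR_Weil
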