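import Mathlib
import Fermat.Prelude.Def_ModularCurve_X0ModL
import Fermat.Agent.Lib.RR.SepLaurent
import Fermat.Agent.MU.Lib.RR.OfSep

section MergeWrap_Lib_RR_OfModularC -- from Lib/RR/OfModularC.lean

set_option autoImplicit false

/-!
# Riemann-Roch library: the function field of `X₀(N)` over an algebraically closed field `k`

`F_k = modularFunctionFieldFullC k N = k(j(q^d) : d ∣ N) ⊆ k((q))`, `k` algebraically closed of
ANY characteristic.  From ONE input

  `GeneratorsAlgebraic k N` : every `j(q^d)`, `d ∣ N`, is algebraic over `k(j)` (inside `k((q))`)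

we get: `j` is transcendental, `F_k / k(j)` is finite and SEPARABLE, and `IsRRField k F_k`, so the
whole Riemann-Roch library applies to `F_k`.  Separability needs no modular polynomial: `j` has
order `-1` in `k((q))`, hence is not a `p`-th power (`Fermat.Agent.RRSep`).
-/

noncomputable section

open AlgebraicCurve IntermediateField ModularCurve

namespace Fermat.Agent.RRMod

section Transfer

variable {k L : Type*} [Field k] [Field L] [Algebra k L]

theorem map_val_adjoin_simple (F : IntermediateField k L) (x : F) :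
    (k⟮x⟯).map F.val = k⟮(x : L)⟯ := by
  rw [IntermediateField.adjoin_map, Set.image_singleton]
  rfl

/-- `k(x) ⊆ F` and `k(x) ⊆ L` are the same field. -/
def adjoinSimpleEquiv (F : IntermediateField k L) (x : F) : k⟮x⟯ ≃ₐ[k] k⟮(x : L)⟯ :=
  (IntermediateField.equivMap _ F.val).trans
    (IntermediateField.equivOfEq (map_val_adjoin_simple F x))

theorem coe_adjoinSimpleEquiv (F : IntermediateField k L) (x : F) (c : k⟮x⟯) :
    ((adjoinSimpleEquiv F x c : k⟮(x : L)⟯) : L) = ((c : F) : L) :=
  rfl

theorem isAlgebraic_iff_val (F : IntermediateField k L) (x a : F) :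
    IsAlgebraic k⟮(x : L)⟯ (a : L) ↔ IsAlgebraic k⟮x⟯ a :=
  isAlgebraic_ringHom_iff_of_comp_eq (adjoinSimpleEquiv F x) F.val F.val.injective (by
    ext c
    rfl)

/-- a field generated over `k` by finitely many elements algebraic over `k(j)` is finite over
`k(j)`. -/
theorem finiteDimensional_adjoin_of_isAlgebraic (S : Set L) (hS : S.Finite) (j : L)
    (hjS : j ∈ adjoin k S) (halg : ∀ s ∈ S, IsAlgebraic k⟮j⟯ s) :
    FiniteDimensional k⟮(⟨j, hjS⟩ : adjoin k S)⟯ (adjoin k S) := by
  set F : IntermediateField k L := adjoin k S with hF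
  set x : F := ⟨j, hjS⟩ with hx
  set S' : Set F := F.val ⁻¹' S with hS'
  have hS'fin : S'.Finite := hS.preimage (F.val.injective.injOn)
  have : Finite S' := hS'fin.to_subtype
  have hint : ∀ s ∈ S', IsIntegral k⟮x⟯ s := by
    intro s hs
    exact ((isAlgebraic_iff_val F x s).mp (halg _ hs)).isIntegral
  have hfd : FiniteDimensional k⟮x⟯ (adjoin k⟮x⟯ S') :=
    IntermediateField.finiteDimensional_adjoin hint
  -- `adjoin k S' = ⊤`
  have htop : (adjoin k S' : IntermediateField k F) = ⊤ := by
    apply IntermediateField.map_injective F.val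
    rw [IntermediateField.adjoin_map]
    have himg : (F.val '' S') = S := by
      ext s
      constructor
      · rintro ⟨t, ht, rfl⟩
        exact ht
      · intro hs
        exact ⟨⟨s, subset_adjoin k S hs⟩, hs, rfl⟩
    rw [himg, ← AlgHom.fieldRange_eq_map, IntermediateField.fieldRange_val]
  have htop' : (adjoin k⟮x⟯ S' : IntermediateField k⟮x⟯ F) = ⊤ := by
    rw [eq_top_iff]
    intro a _
    have ha : a ∈ (adjoin k S' : IntermediateField k F) := by
      rw [htop]
      exact IntermediateField.mem_top
    have hle : (adjoin k S' : IntermediateField k F) ≤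
        (adjoin k⟮x⟯ S').restrictScalars k := by
      rw [adjoin_le_iff]
      intro s hs
      exact subset_adjoin k⟮x⟯ S' hs
    exact hle ha
  rw [htop'] at hfd
  exact (IntermediateField.topEquiv (F := k⟮x⟯) (E := F)).toLinearEquiv.finiteDimensional

end Transfer


section Modular

set_option synthInstance.maxHeartbeats 400000
set_option linter.unusedSectionVars false
set_option linter.style.haveILetI false

variable (k : Type*) [Field k] (N : ℕ) [NeZero N]

/-- the input: every `j(q^d)`, `d ∣ N`, is algebraic over `k(j)` inside `k((q))`. -/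
def GeneratorsAlgebraic : Prop :=
  ∀ (d : ℕ) [NeZero d], d ∣ N →
    IsAlgebraic ↥(IntermediateField.adjoin k {jqModC k}) (qExpand k d (jqModC k))

/-- `j` as an element of `F_k`. -/
def jC : modularFunctionFieldFullC k N := ⟨jqModC k, jqModC_mem_full k N⟩

@[simp]
theorem coe_jC : ((jC k N : modularFunctionFieldFullC k N) : LaurentSeries k) = jqModC k := rfl

omit [NeZero N] in
theorem order_jqModC : (jqModC k).order = -1 := by
  have h1 : (jqModC k).coeff (-1 : ℤ) ≠ 0 := by
    rw [coeff_jqModC_neg_one]
    exact one_ne_zero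
  have hle : (jqModC k).order ≤ -1 := HahnSeries.order_le_of_coeff_ne_zero h1
  refine le_antisymm hle ?_
  by_contra hlt
  push Not at hlt
  have hne : jqModC k ≠ 0 := jqModC_ne_zero_of_nontrivial k
  exact hne (HahnSeries.coeff_order_eq_zero.mp (coeff_jqModC_of_lt k hlt))

omit [NeZero N] in
/-- `j` is not an `ℓ`-th power in `k((q))`, `ℓ ≥ 2`. -/
theorem pow_ne_jqModC {ℓ : ℕ} (hℓ : 2 ≤ ℓ) (y : LaurentSeries k) : y ^ ℓ ≠ jqModC k := by
  intro h
  have h1 := congrArg HahnSeries.order h
  rw [HahnSeries.order_pow, order_jqModC, nsmul_eq_mul] at h1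
  have h2 : (ℓ : ℤ) ∣ -1 := ⟨_, h1.symm⟩
  have h3 : (ℓ : ℤ) ∣ 1 := (dvd_neg.mp h2)
  have h4 := Int.le_of_dvd one_pos h3
  omega

theorem pow_ne_jC {ℓ : ℕ} (hℓ : 2 ≤ ℓ) (y : modularFunctionFieldFullC k N) :
    y ^ ℓ ≠ jC k N := by
  intro h
  apply pow_ne_jqModC k hℓ (y : LaurentSeries k)
  have := congrArg (Subtype.val) h
  simpa using this

theorem transcendental_jC [IsAlgClosed k] : Transcendental k (jC k N) := by
  intro halg
  obtain ⟨c, hc⟩ := Fermat.Agent.S24Res.mem_range_of_isAlgebraic halg
  have h1 : algebraMap k (LaurentSeries k) c = jqModC k := by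
    have := congrArg (Subtype.val) hc
    simpa using this
  have h2 := congrArg (fun x => HahnSeries.coeff x (-1 : ℤ)) h1
  simp only [coeff_jqModC_neg_one] at h2
  rw [algebraMap_laurentSeries_eq_single, HahnSeries.coeff_single_of_ne (by decide)] at h2
  exact zero_ne_one h2

theorem finite_divisorExpansionsC : (divisorExpansionsC k N).Finite := by
  classical
  have hsub : divisorExpansionsC k N ⊆
      (fun d : ℕ => if h : d = 0 then (0 : LaurentSeries k)
        else @qExpand k _ d ⟨h⟩ (jqModC k)) '' (N.divisors : Set ℕ) := by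
    rintro x ⟨d, hd, hdN, rfl⟩
    refine ⟨d, ?_, ?_⟩
    · rw [Finset.mem_coe, Nat.mem_divisors]
      exact ⟨hdN, NeZero.ne N⟩
    · simp only [dif_neg (NeZero.ne d)]
  exact (Set.Finite.image _ (Finset.finite_toSet _)).subset hsub

variable {k N}

theorem finiteDimensional_fullC (h : GeneratorsAlgebraic k N) :
    FiniteDimensional k⟮jC k N⟯ (modularFunctionFieldFullC k N) := by
  refine finiteDimensional_adjoin_of_isAlgebraic (divisorExpansionsC k N)
    (finite_divisorExpansionsC k N) (jqModC k) (jqModC_mem_full k N) ?_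
  rintro s ⟨d, hd, hdN, rfl⟩
  exact h d hdN

theorem isAlgebraic_fullC (h : GeneratorsAlgebraic k N) :
    Algebra.IsAlgebraic k⟮jC k N⟯ (modularFunctionFieldFullC k N) := by
  haveI := finiteDimensional_fullC h
  exact Algebra.IsAlgebraic.of_finite _ _

theorem isSeparable_fullC [IsAlgClosed k] (h : GeneratorsAlgebraic k N) :
    Algebra.IsSeparable k⟮jC k N⟯ (modularFunctionFieldFullC k N) := by
  haveI := isAlgebraic_fullC h
  obtain ⟨p, hp⟩ := CharP.exists k
  rcases CharP.char_is_prime_or_zero k p with hpp | hp0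
  · haveI : Fact p.Prime := ⟨hpp⟩
    refine ⟨fun a => ?_⟩
    exact Fermat.Agent.RRSep.isSeparable_of_isAlgebraic_adjoin p
      (fun y => pow_ne_jC k N hpp.two_le y) (Algebra.IsAlgebraic.isAlgebraic a)
  · subst hp0
    haveI : CharZero k := CharP.charP_to_charZero k
    haveI : CharZero k⟮jC k N⟯ :=
      charZero_of_injective_algebraMap (algebraMap k k⟮jC k N⟯).injective
    haveI : PerfectField k⟮jC k N⟯ := PerfectField.ofCharZero
    exact Algebra.IsAlgebraic.isSeparable_of_perfectField

/-- `F_k` is a function field in one variable over `k`, witnessed by `j`. -/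
theorem isFunctionFieldOver_fullC [IsAlgClosed k] (h : GeneratorsAlgebraic k N) :
    Fermat.Agent.S24Diff.IsFunctionFieldOver k (modularFunctionFieldFullC k N) (jC k N) :=
  ⟨transcendental_jC k N, finiteDimensional_fullC h⟩

/-- **The Riemann-Roch library applies to `F_k`** (any characteristic). -/
theorem isRRField_fullC [IsAlgClosed k] (h : GeneratorsAlgebraic k N) :
    Fermat.Agent.RR.IsRRField k (modularFunctionFieldFullC k N) := by
  haveI := finiteDimensional_fullC h
  haveI := isSeparable_fullC h
  exact Fermat.Agent.RR.isRRField_of_separable (transcendental_jC k N)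

end Modular

end Fermat.Agent.RRMod
end
end MergeWrap_Lib_RR_OfModularC
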