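import Mathlib
import Fermat.Agent.MU.Lib.RR.OfModularC
import Fermat.Agent.MU.Lib.IgusaDeg.AlgJd

section MergeWrap_Lib_RR_OfModularCFinal -- from Lib/RR/OfModularCFinal.lean

set_option autoImplicit false

/-!
# Riemann-Roch library: `F_k = k(j(q^d) : d ∣ N)` over an algebraically closed field, unconditional

`Fermat.Agent.IgusaDeg.isAlgebraic_jd` (helper94) discharges the input `GeneratorsAlgebraic` of
`Fermat.Agent.Lib.RR.OfModularC`.  Hence, for `k` algebraically closed of ANY characteristic:
`j` is transcendental, `F_k / k(j)` is finite separable, and `IsRRField k F_k`.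
-/

noncomputable section

open AlgebraicCurve IntermediateField ModularCurve

namespace Fermat.Agent.RRMod

set_option synthInstance.maxHeartbeats 400000

variable (k : Type*) [Field k] (N : ℕ) [NeZero N]

theorem generatorsAlgebraic : GeneratorsAlgebraic k N :=
  fun d _ _ => Fermat.Agent.IgusaDeg.isAlgebraic_jd k d

theorem finiteDimensional_fullC' :
    FiniteDimensional k⟮jC k N⟯ (modularFunctionFieldFullC k N) :=
  finiteDimensional_fullC (generatorsAlgebraic k N)

theorem isSeparable_fullC' [IsAlgClosed k] :
    Algebra.IsSeparable k⟮jC k N⟯ (modularFunctionFieldFullC k N) :=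
  isSeparable_fullC (generatorsAlgebraic k N)

theorem isFunctionFieldOver_fullC' [IsAlgClosed k] :
    Fermat.Agent.S24Diff.IsFunctionFieldOver k (modularFunctionFieldFullC k N) (jC k N) :=
  isFunctionFieldOver_fullC (generatorsAlgebraic k N)

/-- **The Riemann-Roch library applies to `F_k`**, `k` algebraically closed of any
characteristic. -/
theorem isRRField_fullC' [IsAlgClosed k] :
    Fermat.Agent.RR.IsRRField k (modularFunctionFieldFullC k N) :=
  isRRField_fullC (generatorsAlgebraic k N)

/-- in particular `F_k` has principal divisors (Prelude class). -/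
theorem hasPrincipalDivisors_fullC [IsAlgClosed k] :
    HasPrincipalDivisors k (modularFunctionFieldFullC k N) :=
  ⟨(isRRField_fullC' k N).principal⟩

end Fermat.Agent.RRMod
end
end MergeWrap_Lib_RR_OfModularCFinal
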